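/-
GATE-J27 (S27) / node A0 = GJ27-FROB (helper3): a function field `Ft / k` with a FROBENIUS STRUCTURE.

Vocabulary: the FROZEN Prelude `AlgebraicCurve.SemilinearAut k Ft` (compatible pairs of ring
automorphisms of `Ft` and `k`), which already acts on `Place k Ft`, `Divisor k Ft`, `Pic0 k Ft`
(`SemilinearAut.ord_smul`, `deg_smul`, `degree_smul`, `smul_mem_principal`, `pic0_smul_mk`), and
helper34's `GR/W/RedFinAbs.lean` (finiteness of fixed places and of fixed classes).

* `FrobData p k Ft` : `g : SemilinearAut k Ft` inducing `a ↦ a ^ (p ^ f)` on `k`, `0 < f`, such that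
  every element of `Ft` is fixed by some positive power of `g`.
* `FrobData.pow`    : the structure `(g ^ n, f * n)`.
* FINITE ORBITS     : every place / divisor / class of `Pic0` is fixed by some `g ^ n`, `0 < n`
  (`exists_pow_smul_place_eq`, `exists_pow_smul_divisor_eq`, `exists_pow_smul_pic0_eq`).
* constants         : every `a : k` satisfies `a ^ (q ^ n) = a` for some `0 < n`; the fixed points of
  `a ↦ a ^ (q ^ n)` are finitely many (`finite_base_fixed`).
-/
import Mathlib
import Fermat.Prelude.Def_AlgebraicCurve_BaseChangeGalois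
import Fermat.Agent.GR.W.RedFinAbs

set_option autoImplicit false

noncomputable section

open AlgebraicCurve

namespace Fermat.Agent.GJ27.Frob

open Fermat.Agent.S24 Fermat.Agent.GR.W.RedFinAbs

variable {p : ℕ} {k Ft : Type*} [Field k] [Field Ft] [Algebra k Ft]

/-- **A Frobenius structure on the function field `Ft / k`**: a semilinear automorphism `g`
inducing the `p ^ f`-power map on the constants, all of whose orbits on `Ft` are finite. -/
structure FrobData (p : ℕ) (k Ft : Type*) [Field k] [Field Ft] [Algebra k Ft] where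
  /-- `q = p ^ f` -/
  f : ℕ
  hf : 0 < f
  /-- the Frobenius, as a semilinear automorphism of `Ft / k` -/
  g : SemilinearAut k Ft
  base : ∀ a : k, SemilinearAut.baseAut g a = a ^ (p ^ f)
  fix : ∀ x : Ft, ∃ n : ℕ, 0 < n ∧ (g ^ n) • x = x

namespace FrobData

variable (Φ : FrobData p k Ft)

/-- the cardinality `q = p ^ f` of the field of constants fixed by the Frobenius. -/
def q : ℕ := p ^ Φ.f

theorem q_def : Φ.q = p ^ Φ.f := rfl

/-- the ring automorphism `σ` of `Ft`. -/
def σ : Ft ≃+* Ft := SemilinearAut.toRingAut Φ.g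

theorem σ_apply (x : Ft) : Φ.σ x = Φ.g • x := rfl

theorem σ_algebraMap (a : k) : Φ.σ (algebraMap k Ft a) = algebraMap k Ft (a ^ Φ.q) := by
  rw [σ_apply, SemilinearAut.smul_algebraMap, Φ.base, q_def]

/-! ### powers -/

theorem baseAut_pow_apply (n : ℕ) (a : k) :
    SemilinearAut.baseAut (Φ.g ^ n) a = a ^ (p ^ (Φ.f * n)) := by
  induction n generalizing a with
  | zero => simp
  | succ n ih =>
    rw [pow_succ, SemilinearAut.baseAut_mul]
    show SemilinearAut.baseAut (Φ.g ^ n) (SemilinearAut.baseAut Φ.g a) = _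
    rw [ih, Φ.base, ← pow_mul, ← pow_add, Nat.mul_succ, Nat.add_comm]

theorem pow_pow_smul {α : Type*} [MulAction (SemilinearAut k Ft) α] (n m : ℕ) (x : α) :
    ((Φ.g ^ n) ^ m) • x = (Φ.g ^ (n * m)) • x := by
  rw [pow_mul]

/-- a fixed point of `g ^ n` is a fixed point of `g ^ (n * m)`. -/
theorem pow_mul_smul_eq {α : Type*} [MulAction (SemilinearAut k Ft) α] {n : ℕ} {x : α}
    (h : (Φ.g ^ n) • x = x) (m : ℕ) : (Φ.g ^ (n * m)) • x = x := by
  rw [pow_mul]
  exact pow_smul_eq_of_smul_eq h m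

theorem pow_mul_smul_eq' {α : Type*} [MulAction (SemilinearAut k Ft) α] {n : ℕ} {x : α}
    (h : (Φ.g ^ n) • x = x) (m : ℕ) : (Φ.g ^ (m * n)) • x = x := by
  rw [Nat.mul_comm]
  exact Φ.pow_mul_smul_eq h m

/-- **the Frobenius structure `(g ^ n, q ^ n)`**. -/
def pow (n : ℕ) (hn : 0 < n) : FrobData p k Ft where
  f := Φ.f * n
  hf := Nat.mul_pos Φ.hf hn
  g := Φ.g ^ n
  base := Φ.baseAut_pow_apply n
  fix := fun x => by
    obtain ⟨m, hm, hx⟩ := Φ.fix x
    refine ⟨m, hm, ?_⟩
    rw [← pow_mul]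
    exact Φ.pow_mul_smul_eq' hx n

@[simp] theorem pow_g (n : ℕ) (hn : 0 < n) : (Φ.pow n hn).g = Φ.g ^ n := rfl

@[simp] theorem pow_f (n : ℕ) (hn : 0 < n) : (Φ.pow n hn).f = Φ.f * n := rfl

theorem pow_q (n : ℕ) (hn : 0 < n) : (Φ.pow n hn).q = Φ.q ^ n := by
  rw [q_def, q_def, pow_f, pow_mul]

/-! ### the constants -/

/-- every constant lies in some `𝔽_{q ^ n}`. -/
theorem exists_pow_eq_self (a : k) : ∃ n : ℕ, 0 < n ∧ a ^ (Φ.q ^ n) = a := by
  obtain ⟨n, hn, h⟩ := Φ.fix (algebraMap k Ft a)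
  refine ⟨n, hn, ?_⟩
  rw [SemilinearAut.smul_algebraMap, Φ.baseAut_pow_apply] at h
  have h2 := (algebraMap k Ft).injective h
  rwa [q_def, ← pow_mul]

variable (hp : 1 < p)

include hp in
theorem one_lt_q : 1 < Φ.q := by
  rw [q_def]
  exact Nat.one_lt_pow (Nat.pos_iff_ne_zero.mp Φ.hf) hp

include hp in
/-- the fixed points of `a ↦ a ^ (q ^ n)` on `k` are finitely many. -/
theorem finite_base_fixed (n : ℕ) (hn : 0 < n) :
    {a : k | SemilinearAut.baseAut (Φ.g ^ n) a = a}.Finite := by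
  classical
  have hQ : 1 < p ^ (Φ.f * n) :=
    Nat.one_lt_pow (Nat.pos_iff_ne_zero.mp (Nat.mul_pos Φ.hf hn)) hp
  set P : Polynomial k := Polynomial.X ^ (p ^ (Φ.f * n)) - Polynomial.X with hP
  have hP0 : P ≠ 0 := FiniteField.X_pow_card_sub_X_ne_zero k hQ
  refine (P.roots.toFinset.finite_toSet).subset ?_
  intro a ha
  have ha' : a ^ (p ^ (Φ.f * n)) = a := by
    rw [← Φ.baseAut_pow_apply]; exact ha
  rw [Finset.mem_coe, Multiset.mem_toFinset, Polynomial.mem_roots hP0, Polynomial.IsRoot, hP]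
  simp [ha']

include hp in
theorem finite_base_pow_fixed (n m : ℕ) (hn : 0 < n) (hm : 0 < m) :
    {a : k | (SemilinearAut.baseAut (Φ.g ^ n) ^ m) a = a}.Finite := by
  rw [← baseAut_pow, ← pow_mul]
  exact Φ.finite_base_fixed hp (n * m) (Nat.mul_pos hn hm)

end FrobData

end Fermat.Agent.GJ27.Frob
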