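/-
GATE-J27 (S27) / node A0 = GJ27-FROB, part 2 (helper3): FINITE ORBITS and the numbers `N_n`.

For a Frobenius structure `Φ : FrobData p k Ft` on a function field `Ft / k` (Prelude vocabulary
`Place`, `Divisor`, `Pic0`, `HasPrincipalDivisors`):

* `exists_pow_smul_place_eq`   : every place is fixed by some `g ^ n`, `0 < n`
  (a place `v` is a zero of its uniformiser `π`; `π` is fixed by some `g ^ m`; `g ^ m` permutes the
  FINITE zero set of `π`);
* `exists_pow_smul_divisor_eq` : every divisor is fixed by some `g ^ n`, `0 < n`;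
* `exists_pow_smul_pic0_eq`    : every class of `Pic0 k Ft` is fixed by some `g ^ n`, `0 < n`;
* `finite_fixed_places_pow`    : the places fixed by `g ^ n` (`0 < n`) are finitely many, so
  `Nn Φ n := Nat.card {v // (g ^ n) • v = v}` is the number of `𝔽_{q ^ n}`-rational points;
* `finite_fixed_pic0_pow`      : the classes fixed by `g ^ n` are finitely many, provided some place
  is fixed by `g ^ n`;
* `exists_fixed_place`         : after replacing `g` by a power there is an invariant place;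
* `placePerm`-form for the combinatorial node A2: `perm_pow`, `exists_perm_pow_fixed`,
  `finite_perm_pow_fixed`.
-/
import Mathlib
import Fermat.Agent.GJ27.Frob.Basic

set_option autoImplicit false
set_option linter.unusedSectionVars false

noncomputable section

open AlgebraicCurve

namespace Fermat.Agent.GJ27.Frob

open Fermat.Agent.S24 Fermat.Agent.RRh45 Fermat.Agent.GR.W.RedFinAbs

variable {p : ℕ} {k Ft : Type*} [Field k] [Field Ft] [Algebra k Ft]

/-! ### a uniformiser at a place -/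

/-- every place has a uniformiser. -/
theorem exists_ord_eq_one (v : Place k Ft) : ∃ π : Ft, π ≠ 0 ∧ v.ord π = 1 := by
  obtain ⟨π, hπ⟩ := IsDiscreteValuationRing.exists_irreducible v.toValuationSubring
  refine ⟨(π : Ft), ?_, v.ord_coe_irreducible hπ⟩
  intro h
  exact hπ.ne_zero (Subtype.ext h)

/-- a function with a zero is not constant. -/
theorem ne_algebraMap_of_ord_pos {v : Place k Ft} {t : Ft} (ht : 0 < v.ord t) (a : k) :
    t ≠ algebraMap k Ft a := by
  rintro rfl
  rcases eq_or_ne a 0 with rfl | ha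
  · rw [map_zero, Place.ord_zero] at ht
    exact lt_irrefl _ ht
  · rw [PlaceB.ord_algebraMap v ha] at ht
    exact lt_irrefl _ ht

namespace FrobData

variable (Φ : FrobData p k Ft)

/-! ### finite orbits -/

section Orbits

variable [HasPrincipalDivisors k Ft]

/-- **every place is fixed by a positive power of the Frobenius.** -/
theorem exists_pow_smul_place_eq (v : Place k Ft) : ∃ n : ℕ, 0 < n ∧ (Φ.g ^ n) • v = v := by
  classical
  obtain ⟨π, hπ0, hπ⟩ := exists_ord_eq_one v
  obtain ⟨m, hm, hfix⟩ := Φ.fix π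
  set τ : SemilinearAut k Ft := Φ.g ^ m with hτ
  -- the zero set of `π` is finite and stable under `τ`
  have hZfin : {w : Place k Ft | w.ord π ≠ 0}.Finite := finite_ord_ne_zero hπ0
  have hstab : ∀ i : ℕ, (τ ^ i) • v ∈ {w : Place k Ft | w.ord π ≠ 0} := by
    intro i
    have hfixi : (τ ^ i) • π = π := pow_smul_eq_of_smul_eq hfix i
    have h1 : ((τ ^ i) • v).ord ((τ ^ i) • π) = v.ord π := SemilinearAut.ord_smul (τ ^ i) v π
    rw [hfixi, hπ] at h1
    show ((τ ^ i) • v).ord π ≠ 0
    rw [h1]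
    exact one_ne_zero
  -- pigeonhole on the orbit
  have hninj : ¬ Function.Injective fun i : ℕ => (⟨(τ ^ i) • v, hstab i⟩ :
      {w : Place k Ft | w.ord π ≠ 0}) := by
    have : Finite {w : Place k Ft | w.ord π ≠ 0} := hZfin.to_subtype
    exact not_injective_infinite_finite _
  rw [Function.Injective] at hninj
  push Not at hninj
  obtain ⟨i, j, heq, hij⟩ := hninj
  have heq' : (τ ^ i) • v = (τ ^ j) • v := congrArg Subtype.val heq
  wlog hlt : i < j generalizing i j
  · exact this j i heq.symm hij.symm heq'.symm (lt_of_le_of_ne (not_lt.mp hlt) hij.symm)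
  have h1 : τ ^ j = τ ^ i * τ ^ (j - i) := by
    rw [← pow_add]; congr 1; omega
  rw [h1, mul_smul] at heq'
  have h2 : (τ ^ (j - i)) • v = v := (MulAction.injective (τ ^ i) heq').symm
  refine ⟨m * (j - i), Nat.mul_pos hm (by omega), ?_⟩
  rw [pow_mul]
  exact h2

/-- **every divisor is fixed by a positive power of the Frobenius.** -/
theorem exists_pow_smul_divisor_eq (D : Divisor k Ft) :
    ∃ n : ℕ, 0 < n ∧ (Φ.g ^ n) • D = D := by
  classical
  induction D using Finsupp.induction with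
  | zero => exact ⟨1, one_pos, smul_zero _⟩
  | single_add v a D _ _ ih =>
    obtain ⟨n₁, hn₁, h₁⟩ := Φ.exists_pow_smul_place_eq v
    obtain ⟨n₂, hn₂, h₂⟩ := ih
    refine ⟨n₁ * n₂, Nat.mul_pos hn₁ hn₂, ?_⟩
    rw [smul_add, SemilinearAut.smul_single, Φ.pow_mul_smul_eq h₁ n₂, Φ.pow_mul_smul_eq' h₂ n₁]

/-- **every class of `Pic0` is fixed by a positive power of the Frobenius.** -/
theorem exists_pow_smul_pic0_eq (x : Pic0 k Ft) : ∃ n : ℕ, 0 < n ∧ (Φ.g ^ n) • x = x := by
  obtain ⟨D, rfl⟩ := Pic0.mk_surjective x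
  obtain ⟨n, hn, h⟩ := Φ.exists_pow_smul_divisor_eq (D : Divisor k Ft)
  refine ⟨n, hn, ?_⟩
  rw [SemilinearAut.pic0_smul_mk]
  congr 1
  exact Subtype.ext (by rw [SemilinearAut.coe_degZeroSMulHom]; exact h)

/-- finitely many divisors are simultaneously fixed by one positive power. -/
theorem exists_pow_smul_divisor_eq_of_finset (s : Finset (Divisor k Ft)) :
    ∃ n : ℕ, 0 < n ∧ ∀ D ∈ s, (Φ.g ^ n) • D = D := by
  classical
  induction s using Finset.induction_on with
  | empty => exact ⟨1, one_pos, fun D hD => absurd hD (Finset.notMem_empty D)⟩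
  | insert D s _ ih =>
    obtain ⟨n₁, hn₁, h₁⟩ := Φ.exists_pow_smul_divisor_eq D
    obtain ⟨n₂, hn₂, h₂⟩ := ih
    refine ⟨n₁ * n₂, Nat.mul_pos hn₁ hn₂, fun E hE => ?_⟩
    rcases Finset.mem_insert.mp hE with rfl | hE
    · exact Φ.pow_mul_smul_eq h₁ n₂
    · exact Φ.pow_mul_smul_eq' (h₂ E hE) n₁

/-- finitely many elements of `Ft` are simultaneously fixed by one positive power. -/
theorem exists_pow_smul_eq_of_finset (s : Finset Ft) :
    ∃ n : ℕ, 0 < n ∧ ∀ x ∈ s, (Φ.g ^ n) • x = x := by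
  classical
  induction s using Finset.induction_on with
  | empty => exact ⟨1, one_pos, fun D hD => absurd hD (Finset.notMem_empty D)⟩
  | insert x s _ ih =>
    obtain ⟨n₁, hn₁, h₁⟩ := Φ.fix x
    obtain ⟨n₂, hn₂, h₂⟩ := ih
    refine ⟨n₁ * n₂, Nat.mul_pos hn₁ hn₂, fun y hy => ?_⟩
    rcases Finset.mem_insert.mp hy with rfl | hy
    · exact Φ.pow_mul_smul_eq h₁ n₂
    · exact Φ.pow_mul_smul_eq' (h₂ y hy) n₁

end Orbits

/-! ### the numbers `N_n` -/

section Count

variable [HasPrincipalDivisors k Ft] [Nonempty (Place k Ft)]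

/-- there is a non-constant function. -/
theorem exists_nonconstant : ∃ t : Ft, ∀ a : k, t ≠ algebraMap k Ft a := by
  obtain ⟨v⟩ := ‹Nonempty (Place k Ft)›
  obtain ⟨π, -, hπ⟩ := exists_ord_eq_one v
  exact ⟨π, ne_algebraMap_of_ord_pos (by rw [hπ]; exact one_pos)⟩

variable (hp : 1 < p) (hdeg : ∀ v : Place k Ft, v.deg = 1)

include hp hdeg in
/-- **`N_n` is finite**: the places fixed by `g ^ n`, `0 < n`, are finitely many. -/
theorem finite_fixed_places_pow (n : ℕ) (hn : 0 < n) :
    {v : Place k Ft | (Φ.g ^ n) • v = v}.Finite := by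
  obtain ⟨t, ht⟩ := exists_nonconstant (k := k) (Ft := Ft)
  obtain ⟨m, hm, htm⟩ := Φ.fix t
  have hfin : {v : Place k Ft | (Φ.g ^ (n * m)) • v = v}.Finite :=
    finite_fixed_places (Φ.g ^ (n * m)) hdeg t ht (Φ.pow_mul_smul_eq' htm n)
      (Φ.finite_base_fixed hp (n * m) (Nat.mul_pos hn hm))
  exact hfin.subset fun v hv => Φ.pow_mul_smul_eq hv m

/-- `N_n`: the number of places fixed by `g ^ n` (the `𝔽_{q ^ n}`-rational points). -/
def Nn (n : ℕ) : ℕ := Nat.card {v : Place k Ft // (Φ.g ^ n) • v = v}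

include hp hdeg in
theorem finite_fixedPlaces (n : ℕ) (hn : 0 < n) :
    Finite {v : Place k Ft // (Φ.g ^ n) • v = v} :=
  (Φ.finite_fixed_places_pow hp hdeg n hn).to_subtype

omit [HasPrincipalDivisors k Ft] [Nonempty (Place k Ft)] in
theorem Nn_def (n : ℕ) : Φ.Nn n = Nat.card {v : Place k Ft // (Φ.g ^ n) • v = v} := rfl

omit [Nonempty (Place k Ft)] in
/-- **an invariant place after passing to a power.** -/
theorem exists_fixed_place [Nonempty (Place k Ft)] :
    ∃ (n : ℕ) (_ : 0 < n) (v : Place k Ft), (Φ.pow n ‹_›).g • v = v := by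
  obtain ⟨v⟩ := ‹Nonempty (Place k Ft)›
  obtain ⟨n, hn, h⟩ := Φ.exists_pow_smul_place_eq v
  exact ⟨n, hn, v, h⟩

include hp hdeg in
/-- **the classes of `Pic0` fixed by `g ^ n` are finitely many** (`0 < n`). -/
theorem finite_fixed_pic0_pow [FiniteResidues k Ft] (n : ℕ) (hn : 0 < n) :
    {x : Pic0 k Ft | (Φ.g ^ n) • x = x}.Finite := by
  obtain ⟨O⟩ := ‹Nonempty (Place k Ft)›
  obtain ⟨t, ht⟩ := exists_nonconstant (k := k) (Ft := Ft)
  obtain ⟨m₁, hm₁, htm⟩ := Φ.fix t
  obtain ⟨m₂, hm₂, hOm⟩ := Φ.exists_pow_smul_place_eq O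
  -- the power `N = n * (m₁ * m₂)` fixes `O` and `t`
  set N := n * (m₁ * m₂) with hN
  have hNpos : 0 < N := Nat.mul_pos hn (Nat.mul_pos hm₁ hm₂)
  have hO : (Φ.g ^ N) • O = O := by
    rw [hN, ← Nat.mul_assoc]
    exact Φ.pow_mul_smul_eq' hOm (n * m₁)
  have ht' : (Φ.g ^ N) • t = t := by
    rw [hN, Nat.mul_comm m₁ m₂, ← Nat.mul_assoc]
    exact Φ.pow_mul_smul_eq' htm (n * m₂)
  have hfin : {x : Pic0 k Ft | (Φ.g ^ N) • x = x}.Finite :=
    finite_fixed_pic0 (Φ.g ^ N) O hO hdeg t ht ht'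
      (fun m hm => Φ.finite_base_pow_fixed hp N m hNpos hm)
  refine hfin.subset fun x hx => ?_
  exact Φ.pow_mul_smul_eq hx (m₁ * m₂)

end Count

/-! ### the permutation of the places, for the combinatorial node A2 -/

section Perm

/-- the permutation of the places induced by the Frobenius. -/
def perm : Equiv.Perm (Place k Ft) := MulAction.toPerm Φ.g

theorem perm_apply (v : Place k Ft) : Φ.perm v = Φ.g • v := rfl

theorem perm_pow_apply (n : ℕ) (v : Place k Ft) : (Φ.perm ^ n) v = (Φ.g ^ n) • v := by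
  induction n generalizing v with
  | zero => simp
  | succ n ih =>
    rw [pow_succ, Equiv.Perm.mul_apply, ih, perm_apply, pow_succ, mul_smul]

theorem perm_pow (n : ℕ) (hn : 0 < n) : (Φ.pow n hn).perm = Φ.perm ^ n := by
  ext v
  rw [perm_pow_apply, perm_apply, pow_g]

variable [HasPrincipalDivisors k Ft]

/-- every place has a finite orbit. -/
theorem exists_perm_pow_fixed (v : Place k Ft) : ∃ n : ℕ, 0 < n ∧ (Φ.perm ^ n) v = v := by
  obtain ⟨n, hn, h⟩ := Φ.exists_pow_smul_place_eq v
  exact ⟨n, hn, by rw [perm_pow_apply]; exact h⟩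

/-- every power has finitely many fixed points. -/
theorem finite_perm_pow_fixed [Nonempty (Place k Ft)] (hp : 1 < p)
    (hdeg : ∀ v : Place k Ft, v.deg = 1) (n : ℕ) (hn : 0 < n) :
    {v : Place k Ft | (Φ.perm ^ n) v = v}.Finite := by
  refine (Φ.finite_fixed_places_pow hp hdeg n hn).subset fun v hv => ?_
  have : (Φ.perm ^ n) v = v := hv
  rwa [perm_pow_apply] at this

theorem Nn_eq_card_perm (n : ℕ) :
    Φ.Nn n = Nat.card {v : Place k Ft // (Φ.perm ^ n) v = v} := by
  rw [Nn_def]
  refine Nat.card_congr (Equiv.subtypeEquivRight fun v => ?_)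
  rw [perm_pow_apply]

end Perm

end FrobData

end Fermat.Agent.GJ27.Frob
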