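/-
GATE-J27 (S27) / node A0 = GJ27-FROB, part 3 (helper3): THE BRIDGE from the pinned vocabulary
`GJ27/Vocab.lean : FrobStr p k Ft` (a ring automorphism `σ` of `Ft`) to the Prelude vocabulary
`SemilinearAut k Ft`, and the exports of A0 in the pinned vocabulary.

For `k` perfect of characteristic `p` (in `CountStmt`: `[IsAlgClosed k] [CharP k p] [Fact p.Prime]`)
the map `a ↦ a ^ (p ^ f)` is the ring automorphism `iterateFrobeniusEquiv k p f`, so a `FrobStr` is
a semilinear automorphism `Φ.semiAut : SemilinearAut k Ft`; the frozen Prelude actions on `Place k Ft`,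
`Divisor k Ft`, `Pic0 k Ft` apply.

EXPORTS (all for `Φ : FrobStr p k Ft`):
* `FrobStr.semiAut`, `semiAut_smul`, `semiAut_pow_smul`, `baseAut_semiAut`, `pow_semiAut`;
  `FrobStr.frobData : FrobData p k Ft`;
* `exists_pow_smul_place_eq` / `_divisor_eq` / `_pic0_eq` : finite orbits;
* `finite_fixed_places_pow`, `Nn`, `finite_fixed_pic0_pow`, `exists_fixed_place`;
* `perm`, `perm_pow`, `exists_perm_pow_fixed`, `finite_perm_pow_fixed` (input of A2);
* `exists_pow_eq_self` (`k = ⋃ 𝔽_{q ^ n}`), `finite_base_fixed`.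
-/
import Mathlib
import Fermat.Agent.GJ27.Vocab
import Fermat.Agent.GJ27.Frob.Orbits

set_option autoImplicit false
set_option linter.unusedSectionVars false

noncomputable section

open AlgebraicCurve

namespace Fermat.Agent.GJ27

open Fermat.Agent.S24 Fermat.Agent.RRh45 Fermat.Agent.GJ27.Frob

namespace FrobStr

variable {p : ℕ} {k Ft : Type*} [Field k] [Field Ft] [Algebra k Ft]
variable [ExpChar k p] [PerfectRing k p]

/-- **the Frobenius as a semilinear automorphism** of `Ft / k` (base automorphism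
`a ↦ a ^ (p ^ f)`). -/
def semiAut (Φ : FrobStr p k Ft) : SemilinearAut k Ft :=
  ⟨(Φ.σ, iterateFrobeniusEquiv k p Φ.f), fun a => by
    show Φ.σ (algebraMap k Ft a) = algebraMap k Ft (iterateFrobeniusEquiv k p Φ.f a)
    rw [Φ.σ_algebraMap, iterateFrobeniusEquiv_def]⟩

variable (Φ : FrobStr p k Ft)

@[simp] theorem toRingAut_semiAut : SemilinearAut.toRingAut Φ.semiAut = Φ.σ := rfl

theorem semiAut_smul (x : Ft) : Φ.semiAut • x = Φ.σ x := rfl

theorem baseAut_semiAut (a : k) : SemilinearAut.baseAut Φ.semiAut a = a ^ (p ^ Φ.f) := rfl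

theorem semiAut_pow_smul (n : ℕ) (x : Ft) : (Φ.semiAut ^ n) • x = (Φ.σ ^ n) x := by
  induction n generalizing x with
  | zero => simp
  | succ n ih =>
    rw [pow_succ, mul_smul, ih, semiAut_smul, pow_succ, RingAut.mul_apply]

/-- **the `FrobData` of a `FrobStr`.** -/
def frobData : FrobData p k Ft where
  f := Φ.f
  hf := Φ.f_pos
  g := Φ.semiAut
  base := Φ.baseAut_semiAut
  fix := fun x => by
    obtain ⟨n, hn, hx⟩ := Φ.exists_pow_fixed x
    exact ⟨n, hn, by rw [semiAut_pow_smul]; exact hx⟩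

@[simp] theorem frobData_g : Φ.frobData.g = Φ.semiAut := rfl

@[simp] theorem frobData_f : Φ.frobData.f = Φ.f := rfl

theorem frobData_q : Φ.frobData.q = Φ.q := rfl

/-- the semilinear automorphism of the `n`-th power structure. -/
theorem pow_semiAut (n : ℕ) (hn : 0 < n) : (Φ.pow n hn).semiAut = Φ.semiAut ^ n := by
  apply Subtype.ext
  apply Prod.ext
  · show (Φ.pow n hn).σ = SemilinearAut.toRingAut (Φ.semiAut ^ n)
    apply RingEquiv.ext
    intro x
    rw [FrobStr.pow_σ]
    exact (Φ.semiAut_pow_smul n x).symm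
  · show iterateFrobeniusEquiv k p (Φ.pow n hn).f = SemilinearAut.baseAut (Φ.semiAut ^ n)
    apply RingEquiv.ext
    intro a
    rw [iterateFrobeniusEquiv_def, FrobStr.pow_f]
    exact (Φ.frobData.baseAut_pow_apply n a).symm

/-! ### the constants -/

/-- every constant lies in some `𝔽_{q ^ n}`. -/
theorem exists_pow_eq_self (a : k) : ∃ n : ℕ, 0 < n ∧ a ^ (Φ.q ^ n) = a :=
  Φ.frobData.exists_pow_eq_self a

/-- the fixed points of `a ↦ a ^ (q ^ n)` on `k` are finitely many. -/
theorem finite_base_fixed (hp : 1 < p) (n : ℕ) (hn : 0 < n) :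
    {a : k | a ^ (p ^ (Φ.f * n)) = a}.Finite := by
  refine (Φ.frobData.finite_base_fixed hp n hn).subset fun a ha => ?_
  show SemilinearAut.baseAut (Φ.frobData.g ^ n) a = a
  rw [Φ.frobData.baseAut_pow_apply]
  exact ha

/-! ### finite orbits -/

section Orbits

variable [HasPrincipalDivisors k Ft]

/-- **every place is fixed by a positive power of the Frobenius.** -/
theorem exists_pow_smul_place_eq (v : Place k Ft) : ∃ n : ℕ, 0 < n ∧ (Φ.semiAut ^ n) • v = v :=
  Φ.frobData.exists_pow_smul_place_eq v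

/-- **every divisor is fixed by a positive power of the Frobenius.** -/
theorem exists_pow_smul_divisor_eq (D : Divisor k Ft) : ∃ n : ℕ, 0 < n ∧ (Φ.semiAut ^ n) • D = D :=
  Φ.frobData.exists_pow_smul_divisor_eq D

/-- **every class of `Pic0` is fixed by a positive power of the Frobenius.** -/
theorem exists_pow_smul_pic0_eq (x : Pic0 k Ft) : ∃ n : ℕ, 0 < n ∧ (Φ.semiAut ^ n) • x = x :=
  Φ.frobData.exists_pow_smul_pic0_eq x

theorem exists_pow_smul_divisor_eq_of_finset (s : Finset (Divisor k Ft)) :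
    ∃ n : ℕ, 0 < n ∧ ∀ D ∈ s, (Φ.semiAut ^ n) • D = D :=
  Φ.frobData.exists_pow_smul_divisor_eq_of_finset s

theorem exists_pow_fixed_of_finset (s : Finset Ft) :
    ∃ n : ℕ, 0 < n ∧ ∀ x ∈ s, (Φ.σ ^ n) x = x := by
  obtain ⟨n, hn, h⟩ := Φ.frobData.exists_pow_smul_eq_of_finset s
  exact ⟨n, hn, fun x hx => by rw [← semiAut_pow_smul]; exact h x hx⟩

end Orbits

/-! ### the numbers `N_n` -/

section Count

variable [HasPrincipalDivisors k Ft] [Nonempty (Place k Ft)]
variable (hp : 1 < p) (hdeg : ∀ v : Place k Ft, v.deg = 1)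

include hp hdeg in
/-- **`N_n` is finite.** -/
theorem finite_fixed_places_pow (n : ℕ) (hn : 0 < n) :
    {v : Place k Ft | (Φ.semiAut ^ n) • v = v}.Finite :=
  Φ.frobData.finite_fixed_places_pow hp hdeg n hn

/-- `N_n`: the number of places fixed by `σ ^ n` (the `𝔽_{q ^ n}`-rational points). -/
def Nn (n : ℕ) : ℕ := Nat.card {v : Place k Ft // (Φ.semiAut ^ n) • v = v}

theorem Nn_def (n : ℕ) : Φ.Nn n = Nat.card {v : Place k Ft // (Φ.semiAut ^ n) • v = v} := rfl

theorem Nn_eq_frobData (n : ℕ) : Φ.Nn n = Φ.frobData.Nn n := rfl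

include hp hdeg in
theorem finite_fixedPlaces (n : ℕ) (hn : 0 < n) :
    Finite {v : Place k Ft // (Φ.semiAut ^ n) • v = v} :=
  Φ.frobData.finite_fixedPlaces hp hdeg n hn

/-- `N_n` of the `m`-th power structure is `N_{m n}`. -/
theorem Nn_pow (m : ℕ) (hm : 0 < m) (n : ℕ) : (Φ.pow m hm).Nn n = Φ.Nn (m * n) := by
  rw [Nn_def, Nn_def, pow_semiAut, ← pow_mul]

/-- **an invariant place after passing to a power.** -/
theorem exists_fixed_place :
    ∃ (n : ℕ) (hn : 0 < n) (v : Place k Ft), (Φ.pow n hn).semiAut • v = v := by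
  obtain ⟨v⟩ := ‹Nonempty (Place k Ft)›
  obtain ⟨n, hn, h⟩ := Φ.exists_pow_smul_place_eq v
  exact ⟨n, hn, v, by rw [pow_semiAut]; exact h⟩

include hp hdeg in
/-- **the classes of `Pic0` fixed by `σ ^ n` are finitely many.** -/
theorem finite_fixed_pic0_pow [FiniteResidues k Ft] (n : ℕ) (hn : 0 < n) :
    {x : Pic0 k Ft | (Φ.semiAut ^ n) • x = x}.Finite :=
  Φ.frobData.finite_fixed_pic0_pow hp hdeg n hn

end Count

/-! ### the permutation of the places -/

section Perm

/-- the permutation of the places induced by the Frobenius. -/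
def perm : Equiv.Perm (Place k Ft) := MulAction.toPerm Φ.semiAut

theorem perm_apply (v : Place k Ft) : Φ.perm v = Φ.semiAut • v := rfl

theorem perm_pow_apply (n : ℕ) (v : Place k Ft) : (Φ.perm ^ n) v = (Φ.semiAut ^ n) • v :=
  Φ.frobData.perm_pow_apply n v

theorem perm_pow (n : ℕ) (hn : 0 < n) : (Φ.pow n hn).perm = Φ.perm ^ n := by
  ext v
  rw [perm_pow_apply, perm_apply, pow_semiAut]

/-- `ord` is transported by the Frobenius. -/
theorem ord_perm (v : Place k Ft) (x : Ft) : (Φ.perm v).ord (Φ.σ x) = v.ord x :=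
  SemilinearAut.ord_smul Φ.semiAut v x

variable [HasPrincipalDivisors k Ft]

/-- every place has a finite orbit. -/
theorem exists_perm_pow_fixed (v : Place k Ft) : ∃ n : ℕ, 0 < n ∧ (Φ.perm ^ n) v = v :=
  Φ.frobData.exists_perm_pow_fixed v

/-- every positive power has finitely many fixed points. -/
theorem finite_perm_pow_fixed [Nonempty (Place k Ft)] (hp : 1 < p)
    (hdeg : ∀ v : Place k Ft, v.deg = 1) (n : ℕ) (hn : 0 < n) :
    {v : Place k Ft | (Φ.perm ^ n) v = v}.Finite :=
  Φ.frobData.finite_perm_pow_fixed hp hdeg n hn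

theorem Nn_eq_card_perm (n : ℕ) :
    Φ.Nn n = Nat.card {v : Place k Ft // (Φ.perm ^ n) v = v} :=
  Φ.frobData.Nn_eq_card_perm n

end Perm

end FrobStr

end Fermat.Agent.GJ27
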