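/-
GATE-J27 (S27) / node A0 = GJ27-FROB, part 4 (helper3): the Frobenius on DIVISORS in the
`Finsupp.mapDomain` spelling of the combinatorial nodes A2 / A6 (`τ := Φ.perm`).

* `mapDomain_perm`, `mapDomain_perm_pow` : `mapDomain (Φ.perm ^ n) D = (Φ.semiAut ^ n) • D`;
* `degree_mapDomain_perm`, `mapDomain_perm_mem_principal_iff`, `mapDomain_perm_mem_degZero_iff`;
* `mapDomain_perm_nonneg_iff` : effectivity is preserved;
* `pic0_smul_mk_eq` : the class of `(Φ.semiAut ^ n) • D`;
* `finrank_riemannRochSpace_perm` : `l(σ D) = l(D)` (helper18's `GH/Gal/ChartTransport`).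
-/
import Mathlib
import Fermat.Agent.GJ27.Frob.OfFrobStr
import Fermat.Agent.GH.Gal.ChartTransport

set_option autoImplicit false
set_option linter.unusedSectionVars false

noncomputable section

open AlgebraicCurve

namespace Fermat.Agent.GJ27

open Fermat.Agent.S24 Fermat.Agent.RRh45 Fermat.Agent.GJ27.Frob

namespace FrobStr

variable {p : ℕ} {k Ft : Type*} [Field k] [Field Ft] [Algebra k Ft]
variable [ExpChar k p] [PerfectRing k p] (Φ : FrobStr p k Ft)

theorem mapDomain_perm (D : Divisor k Ft) :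
    Finsupp.mapDomain Φ.perm D = Φ.semiAut • D := rfl

theorem mapDomain_perm_pow (n : ℕ) (D : Divisor k Ft) :
    Finsupp.mapDomain (⇑(Φ.perm ^ n)) D = (Φ.semiAut ^ n) • D := by
  have h : (⇑(Φ.perm ^ n) : Place k Ft → Place k Ft) = fun v => (Φ.semiAut ^ n) • v := by
    funext v
    exact Φ.perm_pow_apply n v
  rw [h]
  rfl

theorem degree_mapDomain_perm_pow (n : ℕ) (D : Divisor k Ft) :
    Divisor.degree (Finsupp.mapDomain (⇑(Φ.perm ^ n)) D) = Divisor.degree D := by
  rw [mapDomain_perm_pow, SemilinearAut.degree_smul]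

theorem mapDomain_perm_pow_mem_principal_iff (n : ℕ) (D : Divisor k Ft) :
    Finsupp.mapDomain (⇑(Φ.perm ^ n)) D ∈ Divisor.principal (K := k) (F := Ft) ↔
      D ∈ Divisor.principal (K := k) (F := Ft) := by
  rw [mapDomain_perm_pow]
  refine ⟨fun h => ?_, SemilinearAut.smul_mem_principal _⟩
  have := SemilinearAut.smul_mem_principal (Φ.semiAut ^ n)⁻¹ h
  rwa [inv_smul_smul] at this

theorem mapDomain_perm_pow_mem_degZero_iff (n : ℕ) (D : Divisor k Ft) :
    Finsupp.mapDomain (⇑(Φ.perm ^ n)) D ∈ Divisor.degZero (K := k) (F := Ft) ↔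
      D ∈ Divisor.degZero (K := k) (F := Ft) := by
  rw [Divisor.mem_degZero, Divisor.mem_degZero, degree_mapDomain_perm_pow]

/-- effectivity is preserved by the Frobenius. -/
theorem smul_nonneg_iff (n : ℕ) (D : Divisor k Ft) :
    0 ≤ (Φ.semiAut ^ n) • D ↔ 0 ≤ D := by
  constructor
  · intro h
    rw [Finsupp.le_def] at h ⊢
    intro v
    have := h ((Φ.semiAut ^ n) • v)
    rwa [SemilinearAut.divisor_smul_apply_smul] at this
  · intro h
    rw [Finsupp.le_def] at h ⊢
    intro v
    rw [SemilinearAut.divisor_smul_apply]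
    exact h _

/-- the class of a transported divisor of degree zero. -/
theorem pic0_smul_mk_eq (n : ℕ) (D : Divisor.degZero (K := k) (F := Ft))
    (D' : Divisor.degZero (K := k) (F := Ft))
    (h : (D' : Divisor k Ft) = (Φ.semiAut ^ n) • (D : Divisor k Ft)) :
    (Φ.semiAut ^ n) • Pic0.mk D = Pic0.mk D' := by
  rw [SemilinearAut.pic0_smul_mk]
  congr 1
  exact Subtype.ext (by rw [SemilinearAut.coe_degZeroSMulHom, h])

/-- `l(σⁿ D) = l(D)`. -/
theorem finrank_riemannRochSpace_smul (n : ℕ) (D : Divisor k Ft) :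
    Module.finrank k (riemannRochSpace ((Φ.semiAut ^ n) • D)) =
      Module.finrank k (riemannRochSpace D) :=
  Fermat.Agent.GH.Gal.finrank_riemannRochSpace_smul (Φ.semiAut ^ n) D

end FrobStr

end Fermat.Agent.GJ27
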